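/-
helper555 — cell A3 (S19), block LOCAL, leaf LIFTI.

`LiftiStatement K F k Fk` (frozen in `Fermat/Agent/A3/H799/LocalSpec.lean`): every class of
`Pic0` is congruent modulo the kernel of reduction to an inertia-invariant class.

Proved here from the leaves DISC and DISC-I: the point with parameter value `0` of a residue disc
with inertia-invariant parameter is fixed by inertia; replacing every point of a divisor by the
fixed point of its residue disc gives an inertia-invariant divisor with the same reduction.
-/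
import Fermat.Agent.A3.H799.LocalSpec

set_option autoImplicit false

noncomputable section

open AlgebraicCurve

namespace Fermat.Agent.A3.H555

open Fermat.Agent.A3.H799 Fermat.Agent.Lib.RR

variable {K F k Fk : Type*} [Field K] [Field F] [Algebra K F] [Field k] [Field Fk] [Algebra k Fk]

/-- A map of places which preserves degrees preserves degrees of divisors. -/
theorem degree_mapDomain_of_deg {K' F' : Type*} [Field K'] [Field F'] [Algebra K' F']
    (φ : Place K F → Place K' F') (hφ : ∀ v, (φ v).deg = v.deg) (D : Divisor K F) :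
    Divisor.degree (Finsupp.mapDomain φ D) = Divisor.degree D := by
  induction D using Finsupp.induction with
  | zero => simp
  | single_add P n D _ _ ih =>
    rw [Finsupp.mapDomain_add, map_add, map_add, ih, Finsupp.mapDomain_single,
      Divisor.degree_single, Divisor.degree_single, hφ]

/-- **Inertia-fixed points.**  Every point of the special fibre is the reduction of a place fixed
by inertia (the centre of its residue disc for an inertia-invariant parameter). -/
theorem exists_fixed_place (hdisc : DiscStatement K F k Fk)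
    (hequiv : DiscEquivStatement K F k Fk) (𝓡 : GoodRed K F k Fk) (Q : Place k Fk) :
    ∃ P : Place K F, 𝓡.r P = Q ∧ ∀ g ∈ 𝓡.I, g • P = P := by
  obtain ⟨d, hd⟩ := hdisc 𝓡 Q
  refine ⟨d.pt 0, d.r_pt 0, fun g hg => ?_⟩
  obtain ⟨h, h', e⟩ := hequiv 𝓡 Q d hd g hg 0
  rw [e]
  congr 1
  exact Subtype.ext (Subtype.ext (map_zero _))

/-- The reduction map of places is onto (consequence of DISC). -/
theorem r_surjective (hdisc : DiscStatement K F k Fk) (𝓡 : GoodRed K F k Fk) :
    Function.Surjective 𝓡.r := fun Q => by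
  obtain ⟨d, -⟩ := hdisc 𝓡 Q
  exact ⟨d.pt 0, d.r_pt 0⟩

/-- **Inertia-invariant lifts of divisors**: if every residue disc which contains a place
contains an inertia-fixed place, then for every divisor `D` there is an inertia-invariant divisor
`D'` of the same degree with the same reduction. -/
theorem exists_invariant_divisor (𝓡 : GoodRed K F k Fk)
    (hfixed : ∀ P₀ : Place K F, ∃ P : Place K F, 𝓡.r P = 𝓡.r P₀ ∧ ∀ g ∈ 𝓡.I, g • P = P)
    (D : Divisor K F) :
    ∃ D' : Divisor K F, (∀ g ∈ 𝓡.I, g • D' = D') ∧
      Divisor.degree D' = Divisor.degree D ∧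
      Finsupp.mapDomain 𝓡.r D' = Finsupp.mapDomain 𝓡.r D := by
  choose lift hr hfix using hfixed
  have := 𝓡.ff1
  refine ⟨Finsupp.mapDomain lift D, fun g hg => ?_, ?_, ?_⟩
  · rw [SemilinearAut.divisor_smul_def, ← Finsupp.mapDomain_comp]
    congr 1
    funext P
    exact hfix P g hg
  · exact degree_mapDomain_of_deg _ (fun v => by rw [FF1.deg_eq_one, FF1.deg_eq_one]) D
  · rw [← Finsupp.mapDomain_comp]
    congr 1
    funext P
    exact hr P

/-- **LIFTI** for one good-reduction datum, from inertia-fixed places in every residue disc. -/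
theorem lifti_of_fixed (𝓡 : GoodRed K F k Fk)
    (hfixed : ∀ P₀ : Place K F, ∃ P : Place K F, 𝓡.r P = 𝓡.r P₀ ∧ ∀ g ∈ 𝓡.I, g • P = P)
    (x : Pic0 K F) :
    ∃ y : Pic0 K F, (∀ g ∈ 𝓡.I, g • y = y) ∧ x - y ∈ 𝓡.kerRed := by
  obtain ⟨D, rfl⟩ := Pic0.mk_surjective x
  obtain ⟨D', hinv, hdeg, hred⟩ := exists_invariant_divisor 𝓡 hfixed (D : Divisor K F)
  have hD' : D' ∈ Divisor.degZero (K := K) (F := F) := by
    rw [Divisor.mem_degZero, hdeg]
    exact D.2
  refine ⟨Pic0.mk ⟨D', hD'⟩, fun g hg => ?_, ⟨D - ⟨D', hD'⟩, rfl, ?_⟩⟩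
  · rw [SemilinearAut.pic0_smul_mk]
    exact congrArg Pic0.mk (Subtype.ext (hinv g hg))
  · have : Finsupp.mapDomain 𝓡.r
        ((D - ⟨D', hD'⟩ : Divisor.degZero (K := K) (F := F)) : Divisor K F) = 0 := by
      rw [AddSubgroup.coe_sub, Finsupp.mapDomain_sub, hred, sub_self]
    rw [this]
    exact AddSubgroup.zero_mem _

/-- **LIFTI** from DISC and DISC-I. -/
theorem liftiStatement_of_disc (hdisc : DiscStatement K F k Fk)
    (hequiv : DiscEquivStatement K F k Fk) : LiftiStatement K F k Fk :=
  fun 𝓡 x => lifti_of_fixed 𝓡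
    (fun P₀ => exists_fixed_place hdisc hequiv 𝓡 (𝓡.r P₀)) x

end Fermat.Agent.A3.H555
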