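/-
helper555 — cell A3 (S19), block LOCAL, leaf DISC-I.

`DiscEquivStatement K F k Fk` (frozen in `Fermat/Agent/A3/H799/LocalSpec.lean`): for residue-disc
data with an inertia-invariant parameter `t`, inertia permutes the points of the disc through
their parameter values, `g • pt a = pt (g a)`.

Proof: `pt a` is the unique place of the disc at which `t - a` vanishes; `g` maps it to a place
of the same disc at which `g • (t - a) = t - g a` vanishes.
-/
import Fermat.Agent.A3.H555.Lifti

set_option autoImplicit false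

noncomputable section

open AlgebraicCurve

namespace Fermat.Agent.A3.H555

open Fermat.Agent.A3.H799 Fermat.Agent.Lib.RR

variable {K F k Fk : Type*} [Field K] [Field F] [Algebra K F] [Field k] [Field Fk] [Algebra k Fk]

/-- Elements of the maximal ideal of `V` reduce to zero. -/
theorem res_eq_zero_of_mem (𝓡 : GoodRed K F k Fk) (a : IsLocalRing.maximalIdeal 𝓡.V) :
    𝓡.res (a : 𝓡.V) = 0 :=
  (𝓡.res_eq_zero _).mpr (ValuationSubring.coe_mem_nonunits_iff.mpr a.2)

/-- The parameter of a residue disc minus the value `a` vanishes at the point `pt a`. -/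
theorem one_le_ord_pt_sub (𝓡 : GoodRed K F k Fk) {Q : Place k Fk} (d : DiscData 𝓡 Q)
    (a : IsLocalRing.maximalIdeal 𝓡.V) :
    1 ≤ (d.pt a).ord (((d.D.t : d.ring) : F) - algebraMap K F (((a : 𝓡.V) : K))) := by
  have h := d.ev_spec a d.D.t
  rw [d.D.ev_t] at h
  rcases h with h | h
  · exfalso
    have hmem : algebraMap K F (((a : 𝓡.V) : K)) ∈ 𝓡.O := (𝓡.algebraMap_mem _).mpr (a : 𝓡.V).2
    have e : (⟨((d.D.t : d.ring) : F), d.ring_le _ d.D.t.2⟩ : 𝓡.O) =
        ⟨algebraMap K F (((a : 𝓡.V) : K)), hmem⟩ := Subtype.ext h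
    have h1 := d.ord_t
    rw [e, 𝓡.red_algebraMap (a : 𝓡.V) hmem, res_eq_zero_of_mem, map_zero, Place.ord_zero] at h1
    exact zero_ne_one h1
  · exact h

/-- A place at which both `t - a` and `t - b` vanish forces `a = b`. -/
theorem eq_of_one_le_ord_sub (P : Place K F) (t : F) {a b : K}
    (ha : 1 ≤ P.ord (t - algebraMap K F a)) (hb : 1 ≤ P.ord (t - algebraMap K F b)) : a = b := by
  have hb' : 1 ≤ P.ord (-(t - algebraMap K F b)) := by rwa [ord_neg]
  have h := ord_add_of_le P (Or.inr ha) (Or.inr hb')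
  have e : t - algebraMap K F a + -(t - algebraMap K F b) = algebraMap K F (b - a) := by
    rw [map_sub]; ring
  rw [e, ord_algebraMap] at h
  rcases h with h | h
  · have := (algebraMap K F).injective (h.trans (map_zero _).symm)
    exact (sub_eq_zero.mp this).symm
  · omega

/-- The points of a residue disc are parametrised injectively. -/
theorem pt_injective (𝓡 : GoodRed K F k Fk) {Q : Place k Fk} (d : DiscData 𝓡 Q) :
    Function.Injective d.pt := by
  intro a b hab
  have ha := one_le_ord_pt_sub 𝓡 d a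
  have hb := one_le_ord_pt_sub 𝓡 d b
  rw [← hab] at hb
  exact Subtype.ext (Subtype.ext (eq_of_one_le_ord_sub _ _ ha hb))

/-- `pt a` is the unique place of the disc at which `t - a` vanishes. -/
theorem pt_eq_of_one_le_ord_sub (𝓡 : GoodRed K F k Fk) {Q : Place k Fk} (d : DiscData 𝓡 Q)
    (a : IsLocalRing.maximalIdeal 𝓡.V) {P : Place K F} (hP : 𝓡.r P = Q)
    (h : 1 ≤ P.ord (((d.D.t : d.ring) : F) - algebraMap K F (((a : 𝓡.V) : K)))) :
    d.pt a = P := by
  obtain ⟨b, rfl⟩ := d.pt_surj P hP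
  have hb := one_le_ord_pt_sub 𝓡 d b
  exact congrArg d.pt (Subtype.ext (Subtype.ext (eq_of_one_le_ord_sub _ _ h hb)))

/-- **DISC-I.** -/
theorem discEquivStatement : DiscEquivStatement K F k Fk := by
  intro 𝓡 Q d ht g hg a
  obtain ⟨h, hres⟩ := 𝓡.I_base g hg (a : 𝓡.V)
  have h' : (⟨SemilinearAut.baseAut g (((a : 𝓡.V) : K)), h⟩ : 𝓡.V) ∈
      IsLocalRing.maximalIdeal 𝓡.V := by
    rw [← ValuationSubring.coe_mem_nonunits_iff, ← 𝓡.res_eq_zero, hres]
    exact res_eq_zero_of_mem 𝓡 a
  refine ⟨h, h', ?_⟩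
  symm
  apply pt_eq_of_one_le_ord_sub 𝓡 d
  · rw [𝓡.I_place g hg, d.r_pt]
  · have h1 := one_le_ord_pt_sub 𝓡 d a
    rw [← SemilinearAut.ord_smul g, smul_sub, ht g hg, SemilinearAut.smul_algebraMap] at h1
    exact h1

/-- **LIFTI** from DISC alone. -/
theorem liftiStatement_of_discStatement (hdisc : DiscStatement K F k Fk) :
    LiftiStatement K F k Fk :=
  liftiStatement_of_disc hdisc discEquivStatement

end Fermat.Agent.A3.H555
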