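/-
helper555 — cell A3 (S19), block LOCAL, leaf KER-I.

`KerInertiaStatement K F k Fk` (frozen in `Fermat/Agent/A3/H799/LocalSpec2.lean`): inertia acts
trivially on `Pic0` modulo the kernel of reduction, because it preserves every residue disc.
-/
import Fermat.Agent.A3.H799.LocalSpec2

set_option autoImplicit false

noncomputable section

open AlgebraicCurve

namespace Fermat.Agent.A3.H555

open Fermat.Agent.A3.H799

variable {K F k Fk : Type*} [Field K] [Field F] [Algebra K F] [Field k] [Field Fk] [Algebra k Fk]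

/-- The reduction of a divisor is invariant under inertia. -/
theorem mapDomain_r_smul (𝓡 : GoodRed K F k Fk) {g : SemilinearAut K F} (hg : g ∈ 𝓡.I)
    (D : Divisor K F) : Finsupp.mapDomain 𝓡.r (g • D) = Finsupp.mapDomain 𝓡.r D := by
  rw [SemilinearAut.divisor_smul_def, ← Finsupp.mapDomain_comp]
  congr 1
  funext P
  exact 𝓡.I_place g hg P

/-- **KER-I.** -/
theorem kerInertiaStatement : KerInertiaStatement K F k Fk := by
  intro 𝓡 g hg x
  obtain ⟨D, rfl⟩ := Pic0.mk_surjective x
  refine ⟨SemilinearAut.degZeroSMulHom g D - D, rfl, ?_⟩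
  have : Finsupp.mapDomain 𝓡.r
      ((SemilinearAut.degZeroSMulHom g D - D : Divisor.degZero (K := K) (F := F)) :
        Divisor K F) = 0 := by
    rw [AddSubgroup.coe_sub, Finsupp.mapDomain_sub, SemilinearAut.coe_degZeroSMulHom,
      mapDomain_r_smul 𝓡 hg, sub_self]
  rw [this]
  exact AddSubgroup.zero_mem _

end Fermat.Agent.A3.H555
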